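/-
P-CFT (helper26), row SD-LTR: `LTraceOfTraceStatement`.

The local trace `t_v = τ (0, · at v)` induced by a global trace, as an `LTrace` for the
character `χ ∘ loc_v`.  The coefficient modules `Res (k(χ))` and `k(χ ∘ loc)` have the same
underlying module and the same action, so the identity is an isomorphism of representations;
it induces mutually inverse chain maps of the level complexes which are the identity on the
underlying functions.
-/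
import Fermat.Agent.H13.Cft.WaistV2
import Fermat.Agent.H95.Cft.LocalOnto
import Fermat.Agent.H77.FrCore.KerA

set_option autoImplicit false

universe u

open CategoryTheory groupCohomology

namespace Fermat.Agent.H26.Cft

open Fermat.Agent.H13.Cft

noncomputable section

section MuRes

variable {k Γ G : Type u} [CommRing k] [Group Γ] [Group G] (loc : Γ →* G) (χ : G →* kˣ)

/-- The actions on `Res (k(χ))` and on `k(χ ∘ loc)` agree. -/
theorem muRep_res_ρ (g : Γ) (x : k) :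
    (Rep.res loc (muRep χ)).ρ g x = (muRep (χ.comp loc)).ρ g x := by
  rfl

/-- The identity, as a morphism `Res (k(χ)) ⟶ k(χ ∘ loc)`. -/
def muResHom : Rep.res loc (muRep χ) ⟶ muRep (χ.comp loc) :=
  Rep.ofHom ⟨LinearMap.id, fun g => by
    refine LinearMap.ext fun x => ?_
    exact muRep_res_ρ loc χ g x⟩

/-- The identity, as a morphism `k(χ ∘ loc) ⟶ Res (k(χ))`. -/
def muResInv : muRep (χ.comp loc) ⟶ Rep.res loc (muRep χ) :=
  Rep.ofHom ⟨LinearMap.id, fun g => by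
    refine LinearMap.ext fun x => ?_
    exact (muRep_res_ρ loc χ g x).symm⟩

theorem muResHom_apply (x : k) : (muResHom loc χ).hom x = x := rfl

theorem muResInv_apply (x : k) : (muResInv loc χ).hom x = x := rfl

variable (𝒱 : LevelSys Γ)

/-- The identification `Cⁿ(Γ, k(χ ∘ loc)) → Cⁿ(Γ, Res (k(χ)))` (the identity on functions). -/
def muCochInv (n : ℕ) :
    lvlCochains 𝒱 (muRep (χ.comp loc)) n →ₗ[k] lvlCochains 𝒱 (Rep.res loc (muRep χ)) n :=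
  ((lvlMap 𝒱 (muResInv loc χ)).f n).hom

/-- The identification `Cⁿ(Γ, Res (k(χ))) → Cⁿ(Γ, k(χ ∘ loc))` (the identity on functions). -/
def muCochHom (n : ℕ) :
    lvlCochains 𝒱 (Rep.res loc (muRep χ)) n →ₗ[k] lvlCochains 𝒱 (muRep (χ.comp loc)) n :=
  ((lvlMap 𝒱 (muResHom loc χ)).f n).hom

theorem muCochInv_coe (n : ℕ) (x : lvlCochains 𝒱 (muRep (χ.comp loc)) n) :
    (muCochInv loc χ 𝒱 n x).1 = x.1 := rfl

theorem muCochHom_coe (n : ℕ) (x : lvlCochains 𝒱 (Rep.res loc (muRep χ)) n) :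
    (muCochHom loc χ 𝒱 n x).1 = x.1 := rfl

theorem muCochInv_mk (n : ℕ) (c : (Fin n → Γ) → k)
    (h1 : c ∈ lvlCochains 𝒱 (muRep (χ.comp loc)) n)
    (h2 : c ∈ lvlCochains 𝒱 (Rep.res loc (muRep χ)) n) :
    muCochInv loc χ 𝒱 n ⟨c, h1⟩ = ⟨c, h2⟩ :=
  Subtype.ext rfl

theorem muCochInv_hom (n : ℕ) (x : lvlCochains 𝒱 (Rep.res loc (muRep χ)) n) :
    muCochInv loc χ 𝒱 n (muCochHom loc χ 𝒱 n x) = x :=
  Subtype.ext rfl

theorem muCochInv_d (n : ℕ) (x : lvlCochains 𝒱 (muRep (χ.comp loc)) n) :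
    muCochInv loc χ 𝒱 (n + 1) (lvlD 𝒱 (muRep (χ.comp loc)) n x)
      = lvlD 𝒱 (Rep.res loc (muRep χ)) n (muCochInv loc χ 𝒱 n x) := by
  have h := LinearMap.congr_fun
    (congrArg ModuleCat.Hom.hom ((lvlMap 𝒱 (muResInv loc χ)).comm n (n + 1))) x
  rw [ModuleCat.hom_comp, ModuleCat.hom_comp, LinearMap.comp_apply, LinearMap.comp_apply,
    Fermat.Agent.H77.frc_lvl_d_apply, Fermat.Agent.H77.frc_lvl_d_apply] at h
  exact h.symm

theorem muCochHom_d (n : ℕ) (x : lvlCochains 𝒱 (Rep.res loc (muRep χ)) n) :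
    muCochHom loc χ 𝒱 (n + 1) (lvlD 𝒱 (Rep.res loc (muRep χ)) n x)
      = lvlD 𝒱 (muRep (χ.comp loc)) n (muCochHom loc χ 𝒱 n x) := by
  have h := LinearMap.congr_fun
    (congrArg ModuleCat.Hom.hom ((lvlMap 𝒱 (muResHom loc χ)).comm n (n + 1))) x
  rw [ModuleCat.hom_comp, ModuleCat.hom_comp, LinearMap.comp_apply, LinearMap.comp_apply,
    Fermat.Agent.H77.frc_lvl_d_apply, Fermat.Agent.H77.frc_lvl_d_apply] at h
  exact h.symm

end MuRes

section Main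

variable {k G : Type u} [CommRing k] [Group G] {𝔄 : ArithDatum k G} (T : Trace 𝔄) (v : 𝔄.ι)

/-- The trace kills `(0, d c at v)`. -/
theorem localAt_d (c : lvlCochains (𝔄.lvlv v) (Rep.res (𝔄.loc v) (muRep 𝔄.χ)) 1) :
    T.localAt v (lvlD (𝔄.lvlv v) (Rep.res (𝔄.loc v) (muRep 𝔄.χ)) 1 c) = 0 := by
  classical
  rw [Fermat.Agent.H95.Cft.localAt_apply]
  have h := Fermat.Agent.H77.frc_tau_d_local T (Pi.single v c)
  have e : (fun w => lvlD (𝔄.lvlv w) (Rep.res (𝔄.loc w) (muRep 𝔄.χ)) 1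
        ((Pi.single v c : ∀ w, lvlCochains (𝔄.lvlv w) (Rep.res (𝔄.loc w) (muRep 𝔄.χ)) 1) w))
      = Pi.single v (lvlD (𝔄.lvlv v) (Rep.res (𝔄.loc v) (muRep 𝔄.χ)) 1 c) := by
    funext w
    exact Pi.apply_single
      (fun w => (lvlD (𝔄.lvlv w) (Rep.res (𝔄.loc w) (muRep 𝔄.χ)) 1 :
        lvlCochains (𝔄.lvlv w) (Rep.res (𝔄.loc w) (muRep 𝔄.χ)) 1 →
          lvlCochains (𝔄.lvlv w) (Rep.res (𝔄.loc w) (muRep 𝔄.χ)) 2))
      (fun w => map_zero _) v c w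
  rw [e] at h
  exact h

/-- The local trace at `v` induced by a global trace, as an `LTrace` for `χ ∘ loc_v`. -/
def lTraceOfTrace : LTrace (𝔄.lvlv v) (𝔄.χ.comp (𝔄.loc v)) where
  t := T.localAt v ∘ₗ muCochInv (𝔄.loc v) 𝔄.χ (𝔄.lvlv v) 2
  t_d c := by
    rw [LinearMap.comp_apply, muCochInv_d]
    exact localAt_d T v _

theorem lTraceOfTrace_t (a : lvlCochains (𝔄.lvlv v) (muRep (𝔄.χ.comp (𝔄.loc v))) 2) :
    (lTraceOfTrace T v).t a = T.localAt v (muCochInv (𝔄.loc v) 𝔄.χ (𝔄.lvlv v) 2 a) := rfl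

/-- Agreement of `lTraceOfTrace` with `T.localAt v` on the underlying functions. -/
theorem lTraceOfTrace_agree (c : (Fin 2 → 𝔄.Γ v) → k)
    (h1 : c ∈ lvlCochains (𝔄.lvlv v) (muRep (𝔄.χ.comp (𝔄.loc v))) 2)
    (h2 : c ∈ lvlCochains (𝔄.lvlv v) (Rep.res (𝔄.loc v) (muRep 𝔄.χ)) 2) :
    (lTraceOfTrace T v).t ⟨c, h1⟩ = T.localAt v ⟨c, h2⟩ := by
  rw [lTraceOfTrace_t, muCochInv_mk (𝔄.loc v) 𝔄.χ (𝔄.lvlv v) 2 c h1 h2]

/-- Nonvanishing on cocycles transfers. -/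
theorem lTraceOfTrace_ne_zero
    (h : ∃ a : lvlCochains (𝔄.lvlv v) (Rep.res (𝔄.loc v) (muRep 𝔄.χ)) 2,
      lvlD (𝔄.lvlv v) (Rep.res (𝔄.loc v) (muRep 𝔄.χ)) 2 a = 0 ∧ T.localAt v a ≠ 0) :
    ∃ a : lvlCochains (𝔄.lvlv v) (muRep (𝔄.χ.comp (𝔄.loc v))) 2,
      lvlD (𝔄.lvlv v) (muRep (𝔄.χ.comp (𝔄.loc v))) 2 a = 0 ∧ (lTraceOfTrace T v).t a ≠ 0 := by
  obtain ⟨a, ha, hne⟩ := h
  refine ⟨muCochHom (𝔄.loc v) 𝔄.χ (𝔄.lvlv v) 2 a, ?_, ?_⟩
  · rw [← muCochHom_d, ha, map_zero]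
  · rw [lTraceOfTrace_t, muCochInv_hom]
    exact hne

end Main

/-- **[L-TR]** `Fermat.Agent.H13.Cft.LTraceOfTraceStatement`: the local trace induced by a
global trace. -/
theorem lTraceOfTraceStatement : LTraceOfTraceStatement := by
  intro p _ G _ 𝔄 T v
  exact ⟨lTraceOfTrace T v, lTraceOfTrace_agree T v, lTraceOfTrace_ne_zero T v⟩

end

end Fermat.Agent.H26.Cft
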